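/-
S44, block X, sub-block MODEL (helper97): THE GAUSS REDUCTION `ρ : Va → k(X₀(M))` over a subfield.

`A` a valuation ring of `ℚ̄` over `p`, `K` a field with `φ : K → ℚ̄`, `A₀ = A ∩ K` a discrete
valuation ring, `Va = (stdEmb A₀ (M p)).val` the Gauss valuation ring of `FK K (M p)`, `p ∤ M`.
* `rhoS`  : `Va → k((q))`, `k` = the residue field of `A` (`Red A (φ z) (rhoS z)`);
* `rhoM`  : `Va → modularFunctionFieldFullC k M` (uses helper43's RED);
* `rhoM_surjective` if `A₀ → k` is surjective.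
-/
import Fermat.Agent.S44.X.Red.ResField
import Fermat.Agent.S36.Mod.Fields
import Fermat.Agent.S36.Mod.GaussEmb.Basic

set_option autoImplicit false
set_option linter.unusedSectionVars false

noncomputable section

namespace Fermat.Agent.S44.X.Model

open ModularCurve Fermat.Agent.S24 Fermat.Agent.S18 Fermat.Agent.S18.Vert Fermat.Agent.S36.Mod
  Fermat.Agent.S28.Export Fermat.Agent.S18.Descent

variable {A : ValuationSubring Kbar} {K : Type*} [Field K] [Algebra ℚ K] {φ : K →+* Kbar}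
  {A₀ : ValuationSubring K} (hφ : A.comap φ = A₀)

/-- `A₀ → A` -/
def liftA : A₀ →+* A := φ.restrict A₀ A (fun x hx => by rw [← hφ] at hx; exact hx)

/-- `A₀((q)) → A((q))` -/
def liftS : LaurentSeries A₀ →+* LaurentSeries A := coeffMap (liftA hφ)

theorem iota_liftS (P : LaurentSeries A₀) : iota A (liftS hφ P) = coeffMap φ (inc A₀ P) := by
  ext n
  rfl

theorem rho_liftS (P : LaurentSeries A₀) :
    rho A (liftS hφ P) = coeffMap (resFieldMap φ hφ) (red A₀ P) := by
  ext n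
  rfl

theorem rho_liftS_ne_zero {P : LaurentSeries A₀} (hP : red A₀ P ≠ 0) :
    rho A (liftS hφ P) ≠ 0 := by
  rw [rho_liftS]
  exact (map_ne_zero _).2 hP

variable [IsDiscreteValuationRing A₀]

/-- The Gauss reduction, with values in `k((q))`. -/
def rhoS (N : ℕ) : (stdEmb A₀ N).val →+* LaurentSeries (IsLocalRing.ResidueField A) :=
  (coeffMap (resFieldMap φ hφ)).comp (stdEmb A₀ N).res

theorem red_rhoS {N : ℕ} (z : (stdEmb A₀ N).val) :
    Red A (coeffMap φ ((z : FK K N) : LaurentSeries K)) (rhoS hφ N z) := by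
  obtain ⟨P, Q, hQ, h⟩ := ((stdEmb A₀ N).mem_val_iff z).1 z.2
  have h1 := (stdEmb A₀ N).res_spec z hQ h
  refine ⟨liftS hφ P, liftS hφ Q, rho_liftS_ne_zero hφ hQ, ?_, ?_⟩
  · rw [iota_liftS, iota_liftS, ← h, map_mul]
    rfl
  · rw [rho_liftS, rho_liftS, ← h1, map_mul]
    rfl

theorem rhoS_eq_zero_iff {N : ℕ} (z : (stdEmb A₀ N).val) :
    rhoS hφ N z = 0 ↔ (stdEmb A₀ N).val.valuation (z : FK K N) < 1 := by
  rw [← ValuationSubring.mem_nonunits_iff, ← (stdEmb A₀ N).res_eq_zero_iff z]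
  exact map_eq_zero (coeffMap (resFieldMap φ hφ))

/-- an element with integral expansion. -/
theorem rhoS_of_eq_inc {N : ℕ} {f : FK K N} {P : LaurentSeries A₀}
    (h : (f : LaurentSeries K) = inc A₀ P) (hf : f ∈ (stdEmb A₀ N).val) :
    rhoS hφ N ⟨f, hf⟩ = coeffMap (resFieldMap φ hφ) (red A₀ P) := by
  show coeffMap (resFieldMap φ hφ) ((stdEmb A₀ N).res ⟨f, hf⟩) = _
  rw [← (stdEmb A₀ N).res_of_eq_inc (f := f) (P := P) h]

variable {M p : ℕ} [NeZero M] [NeZero p]

theorem rhoS_mem (hp : p.Prime) (hA : A.LiesOverPrime p) (hpM : ¬ p ∣ M)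
    (z : (stdEmb A₀ (M * p)).val) :
    rhoS hφ (M * p) z ∈ modularFunctionFieldFullC (IsLocalRing.ResidueField A) M := by
  rw [← resField_FN_mul hp hA hpM]
  exact ⟨_, (baseChangeMap (modularFunctionFieldFull (M * p)) φ (z : FK K (M * p))).2,
    red_rhoS hφ z⟩

/-- **The Gauss reduction** `Va → k(X₀(M))`. -/
def rhoM (hp : p.Prime) (hA : A.LiesOverPrime p) (hpM : ¬ p ∣ M) :
    (stdEmb A₀ (M * p)).val →+* modularFunctionFieldFullC (IsLocalRing.ResidueField A) M :=
  (rhoS hφ (M * p)).codRestrict (modularFunctionFieldFullC (IsLocalRing.ResidueField A) M)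
    (rhoS_mem hφ hp hA hpM)

variable (hp : p.Prime) (hA : A.LiesOverPrime p) (hpM : ¬ p ∣ M)

@[simp] theorem coe_rhoM (z : (stdEmb A₀ (M * p)).val) :
    ((rhoM hφ hp hA hpM z : modularFunctionFieldFullC (IsLocalRing.ResidueField A) M) :
      LaurentSeries (IsLocalRing.ResidueField A)) = rhoS hφ (M * p) z := rfl

theorem red_rhoM (z : (stdEmb A₀ (M * p)).val) :
    Red A (coeffMap φ ((z : FK K (M * p)) : LaurentSeries K))
      (rhoM hφ hp hA hpM z : LaurentSeries (IsLocalRing.ResidueField A)) := red_rhoS hφ z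

theorem rhoM_eq_zero_iff (z : (stdEmb A₀ (M * p)).val) :
    rhoM hφ hp hA hpM z = 0 ↔ (stdEmb A₀ (M * p)).val.valuation (z : FK K (M * p)) < 1 := by
  rw [← rhoS_eq_zero_iff hφ z, ← coe_rhoM hφ hp hA hpM z]
  exact ⟨fun h => by rw [h]; rfl, fun h => Subtype.ext h⟩

theorem rhoM_eq_zero (z : (stdEmb A₀ (M * p)).val)
    (h : (stdEmb A₀ (M * p)).val.valuation (z : FK K (M * p)) < 1) : rhoM hφ hp hA hpM z = 0 :=
  (rhoM_eq_zero_iff hφ hp hA hpM z).2 h

/-- the inverse of a unit. -/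
theorem exists_rhoM_inv (z : (stdEmb A₀ (M * p)).val) :
    ∃ z' : (stdEmb A₀ (M * p)).val, rhoM hφ hp hA hpM z' = (rhoM hφ hp hA hpM z)⁻¹ := by
  by_cases h0 : rhoM hφ hp hA hpM z = 0
  · exact ⟨0, by rw [h0, inv_zero, map_zero]⟩
  have h1 : ¬ (stdEmb A₀ (M * p)).val.valuation (z : FK K (M * p)) < 1 :=
    fun h => h0 (rhoM_eq_zero hφ hp hA hpM z h)
  have h2 : (stdEmb A₀ (M * p)).val.valuation (z : FK K (M * p)) = 1 :=
    le_antisymm ((ValuationSubring.valuation_le_one_iff _ _).2 z.2) (not_lt.1 h1)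
  have hz0 : (z : FK K (M * p)) ≠ 0 := by
    intro h
    rw [h, map_zero] at h2
    exact zero_ne_one h2
  have hz' : (z : FK K (M * p))⁻¹ ∈ (stdEmb A₀ (M * p)).val :=
    (ValuationSubring.valuation_le_one_iff _ _).1 (by rw [map_inv₀, h2, inv_one])
  refine ⟨⟨_, hz'⟩, eq_inv_of_mul_eq_one_right ?_⟩
  rw [← map_mul]
  have : z * ⟨_, hz'⟩ = 1 := Subtype.ext (mul_inv_cancel₀ hz0)
  rw [this, map_one]

/-! ### The generators -/

omit [IsDiscreteValuationRing A₀] [NeZero M] [NeZero p] in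
theorem inc_J (d : ℕ) [NeZero d] : inc A₀ (qExpand A₀ d (jqModC A₀)) = Js K d := by
  rw [inc, coeffMap_qExpand, coeffMap_jqModC, Js, coeffEmb, coeffMap_qExpand, ← jqModC_rat,
    coeffMap_jqModC]

theorem JK_mem_val (N d : ℕ) [NeZero d] (hd : d ∣ N) : JK K N d hd ∈ (stdEmb A₀ N).val :=
  (stdEmb A₀ N).mem_val_of_eq_inc (P := qExpand A₀ d (jqModC A₀)) (inc_J d).symm

theorem rhoS_JK (N d : ℕ) [NeZero d] (hd : d ∣ N) :
    rhoS hφ N ⟨JK K N d hd, JK_mem_val N d hd⟩ =
      qExpand (IsLocalRing.ResidueField A) d (jqModC (IsLocalRing.ResidueField A)) := by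
  rw [rhoS_of_eq_inc hφ (P := qExpand A₀ d (jqModC A₀)) (inc_J d).symm, red, coeffMap_qExpand,
    coeffMap_qExpand, coeffMap_jqModC, coeffMap_jqModC]

theorem algebraMap_mem_val (N : ℕ) (a : A₀) : algebraMap K (FK K N) a ∈ (stdEmb A₀ N).val :=
  (stdEmb A₀ N).mem_val_of_eq_inc (P := HahnSeries.C a) (by rw [inc_C]; rfl)

theorem rhoS_algebraMap (N : ℕ) (a : A₀) :
    rhoS hφ N ⟨algebraMap K (FK K N) a, algebraMap_mem_val N a⟩ =
      algebraMap (IsLocalRing.ResidueField A) (LaurentSeries (IsLocalRing.ResidueField A))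
        (resFieldMap φ hφ (IsLocalRing.residue A₀ a)) := by
  rw [rhoS_of_eq_inc hφ (P := HahnSeries.C a) (by rw [inc_C]; rfl), red,
    algebraMap_laurentSeries_eq_single]
  show coeffMap _ (coeffMap _ (HahnSeries.single 0 a)) = _
  rw [coeffMap_single, coeffMap_single]

/-- **`ρ` is surjective** (if the residue field does not grow). -/
theorem rhoM_surjective (hsurj : Function.Surjective (resFieldMap φ hφ)) :
    Function.Surjective (rhoM hφ hp hA hpM) := by
  have key : ∀ g ∈ modularFunctionFieldFullC (IsLocalRing.ResidueField A) M,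
      ∃ z : (stdEmb A₀ (M * p)).val, rhoS hφ (M * p) z = g := by
    intro g hg
    induction hg using IntermediateField.adjoin_induction with
    | mem y hy =>
      obtain ⟨d, hne, hd, rfl⟩ := hy
      exact ⟨⟨JK K (M * p) d (hd.mul_right p), JK_mem_val _ d _⟩, rhoS_JK hφ _ d _⟩
    | algebraMap c =>
      obtain ⟨c₀, rfl⟩ := hsurj c
      obtain ⟨a, rfl⟩ := IsLocalRing.residue_surjective c₀
      exact ⟨_, rhoS_algebraMap hφ (M * p) a⟩
    | add y z _ _ hy hz =>
      obtain ⟨a, rfl⟩ := hy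
      obtain ⟨b, rfl⟩ := hz
      exact ⟨a + b, map_add _ _ _⟩
    | inv y _ hy =>
      obtain ⟨a, rfl⟩ := hy
      obtain ⟨b, hb⟩ := exists_rhoM_inv hφ hp hA hpM a
      refine ⟨b, ?_⟩
      have := congrArg Subtype.val hb
      exact this
    | mul y z _ _ hy hz =>
      obtain ⟨a, rfl⟩ := hy
      obtain ⟨b, rfl⟩ := hz
      exact ⟨a * b, map_mul _ _ _⟩
  intro g
  obtain ⟨z, hz⟩ := key g.1 g.2
  exact ⟨z, Subtype.ext hz⟩

end Fermat.Agent.S44.X.Model

end
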