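/-
S44, block X, sub-block MODEL (helper97): PT-CENTRE.  The composite valuation ring `VVw w` of
`FK K (M p)` attached to a place `w` of `k(X₀(M))`, and what domination by `VVw w` means
(`Centred`): the reduction of a unit of a local ring dominated by `VVw w` is a unit at `w`.
-/
import Fermat.Agent.S44.X.Model.Rho
import Fermat.Agent.S44.Defs
import Fermat.Agent.S24.FFBasic
import Fermat.Agent.BAD.LevelQ.Pt.Composite
import Fermat.Agent.BAD.LevelQ.Pt.Defs

set_option autoImplicit false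
set_option linter.unusedSectionVars false

noncomputable section

namespace Fermat.Agent.S44.X.Model

open ModularCurve AlgebraicCurve Fermat.Agent.S24 Fermat.Agent.S18 Fermat.Agent.S18.Vert
  Fermat.Agent.S36.Mod Fermat.Agent.S28.Export Fermat.Agent.S18.Descent Fermat.Agent.BAD.LevelQ
  Fermat.Agent.S36.BP

variable {A : ValuationSubring Qb} {K : Type*} [Field K] [Algebra ℚ K] {φ : K →+* Qb}
  {A₀ : ValuationSubring K} (hφ : A.comap φ = A₀) [IsDiscreteValuationRing A₀]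
  {M p : ℕ} [NeZero M] [NeZero p] (hp : p.Prime) (hA : A.LiesOverPrime p) (hpM : ¬ p ∣ M)

/-- The composite of the Gauss valuation of level `M p` with the place `w` of `k(X₀(M))`. -/
def VVw (w : Place (kA A) (Fk A M)) : ValuationSubring (FK K (M * p)) :=
  compVal (stdEmb A₀ (M * p)).val (rhoM hφ hp hA hpM) (rhoM_eq_zero hφ hp hA hpM)
    w.toValuationSubring

variable (w : Place (kA A) (Fk A M))

theorem mem_VVw_iff {z : FK K (M * p)} :
    z ∈ VVw hφ hp hA hpM w ↔
      ∃ h : z ∈ (stdEmb A₀ (M * p)).val, 0 ≤ w.ord (rhoM hφ hp hA hpM ⟨z, h⟩) := by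
  rw [VVw, mem_compVal]
  exact exists_congr fun h => FF.mem_iff_ord_nonneg w

theorem VVw_le : VVw hφ hp hA hpM w ≤ (stdEmb A₀ (M * p)).val := compVal_le

theorem rhoM_algebraMap (a : A₀) :
    rhoM hφ hp hA hpM ⟨algebraMap K (FK K (M * p)) a, algebraMap_mem_val _ a⟩ =
      algebraMap (kA A) (Fk A M) (resFieldMap φ hφ (IsLocalRing.residue A₀ a)) :=
  Subtype.ext (rhoS_algebraMap hφ (M * p) a)

theorem const_mem_VVw : ∀ a ∈ A₀, algebraMap K (FK K (M * p)) a ∈ VVw hφ hp hA hpM w := by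
  intro a ha
  refine ⟨algebraMap_mem_val _ ⟨a, ha⟩, ?_⟩
  rw [rhoM_algebraMap hφ hp hA hpM ⟨a, ha⟩]
  exact w.algebraMap_mem' _

theorem VVw_ne (hsurj : Function.Surjective (resFieldMap φ hφ)) :
    VVw hφ hp hA hpM w ≠ (stdEmb A₀ (M * p)).val := by
  have h1 : ∃ g : Fk A M, g ∉ w.toValuationSubring := by
    by_contra hcon
    exact w.ne_top' (eq_top_iff.2 fun g _ => by_contra fun hg => hcon ⟨g, hg⟩)
  obtain ⟨g, hg⟩ := h1
  obtain ⟨z, rfl⟩ := rhoM_surjective hφ hp hA hpM hsurj g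
  exact compVal_ne hg

/-- the reduction of `j(d z)`. -/
theorem rhoM_JK (d : ℕ) [NeZero d] (hd : d ∣ M) :
    rhoM hφ hp hA hpM ⟨JK K (M * p) d (hd.mul_right p), JK_mem_val _ d _⟩ =
      ⟨qExpand (kA A) d (jqModC (kA A)), jqModCd_mem_full (kA A) M hd⟩ :=
  Subtype.ext (rhoS_JK hφ _ d _)

/-- a unit of the composite reduces to a unit at `w`. -/
theorem ord_rhoM_eq_zero {r : FK K (M * p)} (hr0 : r ≠ 0) (hr : r ∈ VVw hφ hp hA hpM w)
    (hr' : r⁻¹ ∈ VVw hφ hp hA hpM w) : w.ord (rhoM hφ hp hA hpM ⟨r, hr.1⟩) = 0 := by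
  obtain ⟨h1, h2⟩ := (mem_VVw_iff hφ hp hA hpM w).1 hr
  obtain ⟨h1', h2'⟩ := (mem_VVw_iff hφ hp hA hpM w).1 hr'
  have e : rhoM hφ hp hA hpM ⟨r, h1⟩ * rhoM hφ hp hA hpM ⟨r⁻¹, h1'⟩ = 1 := by
    rw [← map_mul]
    have : (⟨r, h1⟩ : (stdEmb A₀ (M * p)).val) * ⟨r⁻¹, h1'⟩ = 1 :=
      Subtype.ext (mul_inv_cancel₀ hr0)
    rw [this, map_one]
  rw [eq_inv_of_mul_eq_one_right e, Place.ord_inv] at h2'
  omega

/-- **`R` is centred at `w`**: the reductions (in the sense of `S44.IsRed`) of the units of `R` are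
units at `w`. -/
def Centred (φ : K →+* Qb) (R : Subring (FK K (M * p))) (w : Place (kA A) (Fk A M)) : Prop :=
  ∀ r : FK K (M * p), RUnit R r → ∀ rbar : Fk A M,
    IsRed A (baseChangeMap (modularFunctionFieldFull (M * p)) φ r)
      (rbar : LaurentSeries (kA A)) → w.ord rbar = 0

/-- comparison of `IsRed` with `ρ`. -/
theorem exists_eq_of_isRed {r : (stdEmb A₀ (M * p)).val} (hr : rhoM hφ hp hA hpM r ≠ 0)
    {rbar : Fk A M}
    (h : IsRed A (baseChangeMap (modularFunctionFieldFull (M * p)) φ (r : FK K (M * p)))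
      (rbar : LaurentSeries (kA A))) :
    ∃ c : kA A, c ≠ 0 ∧ rhoM hφ hp hA hpM r = algebraMap (kA A) (Fk A M) c * rbar := by
  obtain ⟨c, x, y, hx, hy, hc, hrx, hry, hu, hbar⟩ := h
  have h1 : Red A (iota A x / iota A y) (rbar : LaurentSeries (kA A)) := by
    have := (red_iota x).div (red_iota y) hry
    rwa [← hbar, mul_div_cancel_right₀ _ hry] at this
  have hb0 : (rbar : LaurentSeries (kA A)) ≠ 0 := by
    intro h0
    rw [h0, zero_mul] at hbar
    exact hrx hbar.symm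
  have h2 : coeffMap φ ((r : FK K (M * p)) : LaurentSeries K) = c • (iota A x / iota A y) := by
    have := congrArg Subtype.val hu
    rw [smul_eq_C_mul]
    refine this.trans ?_
    show algebraMap Qb (LaurentSeries Qb) c * (iota A x / iota A y) = _
    rw [algebraMap_laurentSeries_eq_single]
    rfl
  have h3 := red_rhoM hφ hp hA hpM r
  rw [h2] at h3
  have hcA : c ∈ A := mem_of_red_smul h1 hb0 h3
  have h4 := h3.unique (h1.smul ⟨c, hcA⟩)
  refine ⟨IsLocalRing.residue A ⟨c, hcA⟩, ?_, Subtype.ext ?_⟩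
  · intro h0
    rw [h0, zero_smul] at h4
    exact hr (Subtype.ext h4)
  · rw [h4, smul_eq_C_mul]
    show _ = algebraMap (kA A) (LaurentSeries (kA A)) _ * (rbar : LaurentSeries (kA A))
    rw [algebraMap_laurentSeries_eq_single]
    rfl

/-- **A local ring dominated by `VVw w` is centred at `w`.** -/
theorem centred_of_dominates {R : Subring (FK K (M * p))}
    (h : Dominates (VVw hφ hp hA hpM w) R) : Centred φ R w := by
  intro r hr rbar hbar
  have h1 := h.1 r hr.2.1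
  have h2 := h.1 _ hr.2.2
  have h3 := ord_rhoM_eq_zero hφ hp hA hpM w hr.1 h1 h2
  have hne : rhoM hφ hp hA hpM ⟨r, h1.1⟩ ≠ 0 := by
    intro h0
    have h4 := (rhoM_eq_zero_iff hφ hp hA hpM ⟨r, h1.1⟩).1 h0
    have h5 := (ValuationSubring.valuation_le_one_iff _ _).2 h2.1
    rw [map_inv₀] at h5
    have hv0 : (stdEmb A₀ (M * p)).val.valuation r ≠ 0 := (Valuation.ne_zero_iff _).mpr hr.1
    exact absurd h4 (not_lt.2 ((inv_le_one₀ (zero_lt_iff.mpr hv0)).mp h5))
  obtain ⟨c, hc, e⟩ := exists_eq_of_isRed hφ hp hA hpM (r := ⟨r, h1.1⟩) hne hbar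
  have hb0 : rbar ≠ 0 := by
    rintro rfl
    rw [mul_zero] at e
    exact hne e
  rw [e, Place.ord_mul _ ((map_ne_zero _).2 hc) hb0, FF.ord_algebraMap, zero_add] at h3
  exact h3

end Fermat.Agent.S44.X.Model

end
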