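/-
S44, block X, sub-block MODEL (helper97): THE FUNCTIONS `x y = q` at level `M q`.

`x = G(z) / G(q z)` (helper213's `Lib.EtaUnit.unitK`), `y = q / x = ± w x`.  We prove
`BAD.LevelQ.Eta (q : F) (VV A₀ hc) x y` and `x, y ∈ ch₁` for the hub `LQ` with coordinate `j`.
-/
import Fermat.Agent.Lib.EtaUnit.FK.AL
import Fermat.Agent.Lib.EtaUnit.FK.Gauss
import Fermat.Agent.BAD.LevelQ.Mod.AL
import Fermat.Agent.BAD.LevelQ.Mod.Kron
import Fermat.Agent.BAD.LevelQ.Hub.Basic
import Fermat.Agent.BAD.LevelQ.Pt.B.Defs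

set_option autoImplicit false
set_option linter.unusedSectionVars false

noncomputable section

namespace Fermat.Agent.S44.X.Model

open ModularCurve Fermat.Agent.S24 Fermat.Agent.S18 Fermat.Agent.S36.Mod Fermat.Agent.BAD.LevelQ
  Fermat.Agent.BAD.LevelQ.Mod Fermat.Agent.Lib.EtaUnit

variable {K : Type*} [Field K] [Algebra ℚ K] [Algebra K Kbar]
  {A₀ : ValuationSubring K} [IsDiscreteValuationRing A₀] {M q : ℕ} [NeZero M] [NeZero q]
  {a : ℕ} {χ : ℤ → ℤ} {G : UpperHalfPlane → ℂ} {Gs : PowerSeries ℤ}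
  (h : IsW1 a χ G Gs) (hq : Nat.Coprime q a) (ha : a ∣ M) (hc : M.Coprime q)
  (hN : a * q ∣ M * q)

/-- `y = q / x`. -/
def yK (K : Type*) [Field K] [Algebra ℚ K] : FK K (M * q) :=
  (q : FK K (M * q)) * (unitK h q (M * q) hq hN K)⁻¹

theorem x_mul_y : unitK h q (M * q) hq hN K * yK h hq hN K = (q : FK K (M * q)) := by
  have := unitK_ne_zero h q (M * q) hq hN K
  rw [yK]
  field_simp

theorem val_x_zero : (VV A₀ hc 0).valuation (unitK h q (M * q) hq hN K) = 1 := by
  obtain ⟨ϖ, h₀⟩ := exists_isUnif A₀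
  exact valuation_unitK h q (M * q) hq hN (isGauss_Og h₀ (M * q))

include ha in
/-- `w y = ± x`. -/
theorem ww_y : ww K hc (yK h hq hN K) = unitK h q (M * q) hq hN K ∨
    ww K hc (yK h hq hN K) = -unitK h q (M * q) hq hN K := by
  have hx0 := unitK_ne_zero h q (M * q) hq hN K
  have hq0 : (q : FK K (M * q)) ≠ 0 := by
    have : CharZero K := algebraRat.charZero K
    have : CharZero (FK K (M * q)) :=
      charZero_of_injective_algebraMap (algebraMap K (FK K (M * q))).injective
    exact_mod_cast NeZero.ne q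
  have e : ww K hc (yK h hq hN K) = (q : FK K (M * q)) *
      (algebraMap K (FK K (M * q)) (((χ q * q : ℤ) : K)) * (unitK h q (M * q) hq hN K)⁻¹)⁻¹ := by
    rw [yK, map_mul, map_natCast, map_inv₀, ww_apply, wAL_unitK h M q hq ha hc hN K]
  rcases chi_eq_one_or h q hq with h1 | h1
  · left
    rw [e, h1]
    simp only [one_mul, Int.cast_natCast, map_natCast]
    field_simp
  · right
    rw [e, h1]
    simp only [neg_mul, one_mul, Int.cast_neg, Int.cast_natCast, map_neg, map_natCast]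
    field_simp

include ha in
theorem val_y_one : (VV A₀ hc 1).valuation (yK h hq hN K) = 1 := by
  rw [sym_val_eq (w := ww K hc) (mem_VV_one hc)]
  rcases ww_y h hq ha hc hN (K := K) with e | e
  · rw [e]
    exact val_x_zero h hq hc hN
  · rw [e, Valuation.map_neg]
    exact val_x_zero h hq hc hN

include ha in
/-- **The functions `x y = q`.** -/
theorem etaW1 : Eta (q : FK K (M * q)) (VV A₀ hc) (unitK h q (M * q) hq hN K) (yK h hq hN K) :=
  ⟨x_mul_y h hq hN, val_x_zero h hq hc hN, val_y_one h hq ha hc hN⟩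

variable {ϖ₀ : K} {γ : FK K M →+* FK K M} {Ow' : ValuationSubring (FK K M)}

include ha in
theorem x_mem_ch₁
    (H : LQ A₀ ϖ₀ q (al K M q) (be K M q) (ww K hc) γ Ow' (VV A₀ hc) (jK K M)) :
    unitK h q (M * q) hq hN K ∈ ch₁ A₀ (al K M q) (be K M q) (jK K M) := by
  rw [← H.chart_al_eq, mem_chart_iff H.complete H.isMCoord_al]
  refine ⟨fun c => ?_, unitK_mem_chart_top h q (M * q) hq hN K⟩
  rw [← ValuationSubring.valuation_le_one_iff]
  fin_cases c
  · exact (val_x_zero h hq hc hN).le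
  · show (VV A₀ hc 1).valuation _ ≤ 1
    have e : (VV A₀ hc 1).valuation (unitK h q (M * q) hq hN K) =
        (VV A₀ hc 1).valuation (q : FK K (M * q)) := by
      rw [← x_mul_y h hq hN, map_mul, val_y_one h hq ha hc hN, mul_one]
    rw [e, ValuationSubring.valuation_le_one_iff]
    exact natCast_mem _ q

include ha in
theorem y_mem_ch₁
    (H : LQ A₀ ϖ₀ q (al K M q) (be K M q) (ww K hc) γ Ow' (VV A₀ hc) (jK K M)) :
    yK h hq hN K ∈ ch₁ A₀ (al K M q) (be K M q) (jK K M) := by
  rw [← H.chart_al_eq, mem_chart_iff H.complete H.isMCoord_al]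
  refine ⟨fun c => ?_, Subring.mul_mem _ (natCast_mem _ q)
    (unitK_inv_mem_chart_top h q (M * q) hq hN K)⟩
  rw [← ValuationSubring.valuation_le_one_iff]
  fin_cases c
  · show (VV A₀ hc 0).valuation _ ≤ 1
    rw [yK, map_mul, map_inv₀, val_x_zero h hq hc hN, inv_one, mul_one,
      ValuationSubring.valuation_le_one_iff]
    exact natCast_mem _ q
  · exact (val_y_one h hq ha hc hN).le

end Fermat.Agent.S44.X.Model

end
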