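/-
S44, block X, sub-block MODEL (helper97): **NodeModel** = (M1)-(M3) of helper132: the regular model
of `X₀(M p)` (`4 ∣ M`, `p ∤ M`, `p ≥ 5`) over the ring of integers of the inertia field, as seen from
the places of the component `v_∞` of the special fibre.

* `Va` = the Gauss valuation ring of `E = FK (K0 A) (M p)`, `Vb = Va ∘ w_p`;
* `x = G₄(z) / G₄(p z)`, `y = p / x`;
* every place `w` of `k(X₀(M))` is the centre of a local ring `R ⊆ Va` of the model, which is a node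
  `x y = p` or a smooth point where `x` is a unit (`j` regular at `w`), or a smooth point (`j` has a
  pole at `w`).
-/
import Fermat.Agent.S44.X.Model.Centre
import Fermat.Agent.S44.X.Model.EtaW1
import Fermat.Agent.S44.X.Div4
import Fermat.Agent.BAD.LevelQ.Mod.MainSub
import Fermat.Agent.BAD.LevelQ.Mod.CuspQ
import Fermat.Agent.BAD.LevelQ.Mod.PoleJ
import Fermat.Agent.BAD.LevelQ.Pt.B.ExportPL
import Fermat.Agent.BAD.Bridge.Defs
import Fermat.Agent.Lib.InertiaField.Residue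
import Fermat.Agent.Lib.InertiaField.Unram

set_option autoImplicit false
set_option linter.unusedSectionVars false

noncomputable section

namespace Fermat.Agent.S44.X.Model

open ModularCurve AlgebraicCurve Fermat.Agent.S24 Fermat.Agent.S18 Fermat.Agent.S36.Mod
  Fermat.Agent.BAD.LevelQ Fermat.Agent.BAD.LevelQ.Mod Fermat.Agent.Lib.EtaUnit
  Fermat.Agent.Lib.InertiaField Fermat.Agent.S36.BP Fermat.Agent.S44.PL

theorem comap_A0 (A : ValuationSubring S44.Qb) :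
    A.comap (algebraMap (K0 A) S44.Qb) = A0 A := rfl

/-- The point of the model at the place `w`. -/
def PtAt (A : ValuationSubring S44.Qb) (p M : ℕ) [NeZero p] [NeZero M]
    (Va Vb : ValuationSubring (FK (K0 A) (M * p))) (x y : FK (K0 A) (M * p))
    (w : Place (kA A) (Fk A M)) (R : Subring (FK (K0 A) (M * p))) : Prop :=
  (∀ r ∈ R, r ∈ Va) ∧ Centred (algebraMap (K0 A) S44.Qb) R w ∧
    (0 ≤ w.ord (jk A M) → IsNode (A0 A) p R Va Vb x y ∨ (IsSmooth (A0 A) p R Va ∧ RUnit R x)) ∧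
    (w.ord (jk A M) < 0 → IsSmooth (A0 A) p R Va)

/-- **The regular model of level `M p` over the inertia field.** -/
structure IsNodeModel (A : ValuationSubring S44.Qb) (p M : ℕ) [NeZero p] [NeZero M]
    (Va Vb : ValuationSubring (FK (K0 A) (M * p))) (x y : FK (K0 A) (M * p)) : Prop where
  /-- (M1) -/
  gauss : IsGauss (A0 A) (p : K0 A) (FK (K0 A) (M * p)) Va
  atkin : ∃ hc : M.Coprime p, ∀ z, z ∈ Vb ↔ ww (K0 A) hc z ∈ Va
  const_a : ∀ a ∈ A0 A, algebraMap (K0 A) (FK (K0 A) (M * p)) a ∈ Va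
  const_b : ∀ a ∈ A0 A, algebraMap (K0 A) (FK (K0 A) (M * p)) a ∈ Vb
  /-- (M2) -/
  mul_eq : x * y = (p : FK (K0 A) (M * p))
  /-- (M3) -/
  pts : ∀ w : Place (kA A) (Fk A M), ∃ R, PtAt A p M Va Vb x y w R

variable {A : ValuationSubring S44.Qb} {p M : ℕ} [NeZero p] [NeZero M]

theorem resFieldMap_surjective (hp : p.Prime) (hA : A.LiesOverPrime p) :
    Function.Surjective
      (resFieldMap (algebraMap (K0 A) S44.Qb) (comap_A0 A)) := by
  intro y
  obtain ⟨⟨a, ha⟩, rfl⟩ := IsLocalRing.residue_surjective y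
  obtain ⟨b, hbK, hbA, hab⟩ := exists_mem_K0_sub_mem A p hp hA ha
  refine ⟨IsLocalRing.residue (A0 A) ⟨⟨b, hbK⟩, hbA⟩, ?_⟩
  have e : resFieldMap (algebraMap (K0 A) S44.Qb) (comap_A0 A)
      (IsLocalRing.residue (A0 A) ⟨⟨b, hbK⟩, hbA⟩) = IsLocalRing.residue A ⟨b, hbA⟩ := rfl
  rw [e]
  symm
  rw [← sub_eq_zero, ← map_sub, IsLocalRing.residue_eq_zero_iff]
  obtain ⟨h1, h2⟩ := (ValuationSubring.mem_nonunits_iff_exists_mem_maximalIdeal).1 hab
  exact h2

theorem xK_eq_jK (K : Type*) [Field K] [Algebra ℚ K] {D : BaseData M p}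
    (hD : D.xK Kbar = jF M) : D.xK K = jK K M := by
  have h1 : coeffEmb Kbar (coeffMap (Int.castRingHom ℚ) D.X) = coeffEmb Kbar (qExpand ℚ 1 jq) :=
    congrArg Subtype.val hD
  have h2 : coeffMap (Int.castRingHom ℚ) D.X = qExpand ℚ 1 jq := (coeffEmb Kbar).injective h1
  apply Subtype.ext
  show coeffEmb K (coeffMap (Int.castRingHom ℚ) D.X) = coeffEmb K jq
  rw [h2, qExpand_one_apply]

section Main

variable (hp : p.Prime) (h5 : 5 ≤ p) (hpM : ¬ p ∣ M) (h4 : 4 ∣ M) (hA : A.LiesOverPrime p)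
  [IsDiscreteValuationRing (A0 A)] (hc : M.Coprime p) (hp4 : Nat.Coprime p 4)
  (hN : 4 * p ∣ M * p)

include hp hA hpM in
theorem al_jK_mem_VVw_iff (w : Place (kA A) (Fk A M)) :
    al (K0 A) M p (jK (K0 A) M) ∈
        VVw (comap_A0 A) hp hA hpM w ↔
      0 ≤ w.ord (jk A M) := by
  have e : al (K0 A) M p (jK (K0 A) M) = JK (K0 A) (M * p) 1 ((one_dvd M).mul_right p) := by
    apply Subtype.ext
    show coeffEmb (K0 A) jq = coeffEmb (K0 A) (qExpand ℚ 1 jq)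
    rw [qExpand_one_apply]
  have e2 : rhoM (comap_A0 A) hp hA hpM
      ⟨JK (K0 A) (M * p) 1 ((one_dvd M).mul_right p), JK_mem_val _ 1 _⟩ = jk A M := by
    rw [rhoM_JK (comap_A0 A) hp hA hpM 1 (one_dvd M)]
    exact Subtype.ext (qExpand_one_apply _)
  rw [e, mem_VVw_iff]
  constructor
  · rintro ⟨_, h⟩
    rwa [e2] at h
  · intro h
    exact ⟨JK_mem_val _ 1 _, by rwa [e2]⟩

include hp h5 hpM h4 hA in
/-- (M3) -/
theorem exists_ptAt (w : Place (kA A) (Fk A M)) :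
    ∃ R, PtAt A p M (VV (A0 A) hc 0) (VV (A0 A) hc 1) (unitK isW1_G4 p (M * p) hp4 hN (K0 A))
      (yK isW1_G4 hp4 hN (K0 A)) w R := by
  obtain ⟨D, -, hDbar⟩ := S34.Nodal.Inst.Base.exists_baseData_j M p hp h5
  obtain ⟨γ₀, -, H⟩ := lq_inertia A hp hA hc D (beInt_j D hDbar)
  rw [xK_eq_jK (K0 A) hDbar] at H
  obtain ⟨c, C⟩ := exists_cuspQ H
  have E := etaW1 isW1_G4 hp4 h4 hc hN (A₀ := A0 A) (K := K0 A)
  have hx := x_mem_ch₁ isW1_G4 hp4 h4 hc hN H
  have hy := y_mem_ch₁ isW1_G4 hp4 h4 hc hN H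
  have hac := isAlgClosed_residueField_A0 A p hp hA
  obtain ⟨R, -, hdom, h1, h2⟩ := H.exists_point hac E hx hy C
    (VVw (comap_A0 A) hp hA hpM w)
    (const_mem_VVw (comap_A0 A) hp hA hpM w) (VVw_le (comap_A0 A) hp hA hpM w)
    (VVw_ne (comap_A0 A) hp hA hpM w (resFieldMap_surjective hp hA))
  refine ⟨R, fun r hr => VVw_le (comap_A0 A) hp hA hpM w (hdom.1 r hr),
    centred_of_dominates (comap_A0 A) hp hA hpM w hdom, fun hw => ?_, fun hw => ?_⟩
  · exact h1 ((al_jK_mem_VVw_iff hp hpM hA w).2 hw)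
  · exact h2 fun hmem => absurd ((al_jK_mem_VVw_iff hp hpM hA w).1 hmem) (not_le.2 hw)

include hp h5 hpM h4 hA in
theorem isNodeModel :
    IsNodeModel A p M (VV (A0 A) hc 0) (VV (A0 A) hc 1) (unitK isW1_G4 p (M * p) hp4 hN (K0 A))
      (yK isW1_G4 hp4 hN (K0 A)) where
  gauss := isGauss_Og (BAD.Bridge.isUnif_A0 A p hp hA) (M * p)
  atkin := ⟨hc, mem_VV_one hc⟩
  const_a := fun a ha => algebraMap_mem_val (M * p) ⟨a, ha⟩
  const_b := fun a ha => by
    rw [mem_VV_one hc, AlgEquiv.commutes]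
    exact algebraMap_mem_val (M * p) ⟨a, ha⟩
  mul_eq := x_mul_y isW1_G4 hp4 hN
  pts := exists_ptAt hp h5 hpM h4 hA hc hp4 hN

end Main

/-- **Node Model** (X3-MODEL). -/
def NodeModel : Prop :=
  ∀ (p : ℕ) [NeZero p] (M' : ℕ) [NeZero M'], p.Prime → 5 ≤ p → ¬ p ∣ M' →
    ∀ (hp4 : Nat.Coprime p 4) (A : ValuationSubring S44.Qb), A.LiesOverPrime p →
      ∃ (Va Vb : ValuationSubring (FK (K0 A) (M' * 4 * p))) (x y : FK (K0 A) (M' * 4 * p)),
        IsNodeModel A p (M' * 4) Va Vb x y ∧ BAD.Bridge.bc A (M' * 4 * p) x = xU p M' hp4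

theorem nodeModel : NodeModel := by
  intro p _ M' _ hp h5 hpM hp4 A hA
  have := isDiscreteValuationRing_A0 A p hp hA
  have hpM4 : ¬ p ∣ M' * 4 := fun h => hpM (hp4.dvd_of_dvd_mul_right h)
  have hc : (M' * 4).Coprime p := ((Nat.Prime.coprime_iff_not_dvd hp).2 hpM4).symm
  have hN : 4 * p ∣ M' * 4 * p := ⟨M', by ring⟩
  exact ⟨_, _, _, _, isNodeModel hp h5 hpM4 (Dvd.intro_left M' rfl) hA hc hp4 hN,
    baseChangeMap_unitK isW1_G4 p (M' * 4 * p) hp4 hN _⟩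

end Fermat.Agent.S44.X.Model

end
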