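/-
S44, block X, sub-block MODEL (helper97): comparison of the vertical valuation rings `Va`, `Vb` of
`FK K (M q)` with the Gauss valuation ring `G` of `FN (M q)` (`Cover.IsGaussFN`) and its transform
`Cover.wG D G` by the Atkin-Lehner involution:  `Va = G ∩ FK K`, `Vb = wG D G ∩ FK K`.
-/
import Fermat.Agent.S44.X.Model.Rho
import Fermat.Agent.S44.X.Cover.Inst
import Fermat.Agent.BAD.LevelQ.Mod.AL

set_option autoImplicit false
set_option linter.unusedSectionVars false

noncomputable section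

namespace Fermat.Agent.S44.X.Model

open ModularCurve Fermat.Agent.S24 Fermat.Agent.S18 Fermat.Agent.S18.Vert Fermat.Agent.S36.Mod
  Fermat.Agent.S28.Export Fermat.Agent.S18.Descent Fermat.Agent.BAD.LevelQ.Mod
  Fermat.Agent.S44.X.Cover

variable {A : ValuationSubring Kbar} {K : Type} [Field K] [Algebra ℚ K] [Algebra K Kbar]
  {A₀ : ValuationSubring K} [IsDiscreteValuationRing A₀]
  (hφ : A.comap (algebraMap K Kbar) = A₀)

include hφ in
/-- `Va = G ∩ FK K L`. -/
theorem mem_val_iff_bcX_mem {L : ℕ} {G : ValuationSubring (FN L)} (hG : IsGaussFN A L G)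
    (z : FK K L) : z ∈ (stdEmb A₀ L).val ↔ bcX K L z ∈ G := by
  rw [hG]
  constructor
  · intro hz
    obtain ⟨P, Q, hQ, h⟩ := ((stdEmb A₀ L).mem_val_iff z).1 hz
    refine ⟨liftS hφ P, liftS hφ Q, rho_liftS_ne_zero hφ hQ, ?_⟩
    show coeffMap (algebraMap K Kbar) (z : LaurentSeries K) * iota A (liftS hφ Q) =
      iota A (liftS hφ P)
    rw [iota_liftS, iota_liftS, ← h, map_mul]
    rfl
  · rintro ⟨P, Q, hQ, h⟩
    by_contra hz
    have hz' : z⁻¹ ∈ (stdEmb A₀ L).val := ((stdEmb A₀ L).val.mem_or_inv_mem z).resolve_left hz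
    have hz0 : z ≠ 0 := fun h0 => hz (h0 ▸ zero_mem _)
    have hnon : z⁻¹ ∈ (stdEmb A₀ L).val.nonunits := by
      rw [IntEmb.mem_nonunits_iff_aux, inv_inv]
      exact Or.inr hz
    have h1 : rhoS hφ L ⟨z⁻¹, hz'⟩ = 0 :=
      (rhoS_eq_zero_iff hφ _).2 ((ValuationSubring.mem_nonunits_iff _).1 hnon)
    have h2 := red_rhoS hφ (⟨z⁻¹, hz'⟩ : (stdEmb A₀ L).val)
    rw [h1] at h2
    have h3 : Red A (coeffMap (algebraMap K Kbar) (z : LaurentSeries K)) (rho A P / rho A Q) :=
      ⟨P, Q, hQ, h, div_mul_cancel₀ _ hQ⟩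
    have h4 := h2.mul h3
    have e : coeffMap (algebraMap K Kbar) (((⟨z⁻¹, hz'⟩ : (stdEmb A₀ L).val) : FK K L) :
        LaurentSeries K) * coeffMap (algebraMap K Kbar) (z : LaurentSeries K) = 1 := by
      rw [← map_mul]
      have : (((z⁻¹ : FK K L) : LaurentSeries K)) * (z : LaurentSeries K) = 1 := by
        have := congrArg Subtype.val (inv_mul_cancel₀ hz0)
        exact this
      rw [this, map_one]
    rw [e, zero_mul] at h4
    exact one_ne_zero (red_one.unique h4)

variable {M q : ℕ} [NeZero M] [NeZero q]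

theorem bcX_al (f : FK K M) :
    bcX K (M * q) (al K M q f) = heckeAlphaBar Kbar M q (bcX K M f) := by
  apply Subtype.ext
  rw [coe_heckeAlphaBar, coe_bcX, coe_bcX]
  show coeffMap _ ((heckeAlphaBar K M q f : FK K (M * q)) : LaurentSeries K) = _
  rw [coe_heckeAlphaBar]

theorem bcX_be (f : FK K M) :
    bcX K (M * q) (be K M q f) = heckeBetaBar Kbar M q (bcX K M f) := by
  apply Subtype.ext
  rw [coe_heckeBetaBar, coe_bcX, coe_bcX]
  show coeffMap _ ((heckeBetaBar K M q f : FK K (M * q)) : LaurentSeries K) = _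
  rw [coe_heckeBetaBar, coeffMap_qExpand]

/-- every generator of level `M q` comes from level `M`. -/
theorem JK_eq_al_or_be (hq : q.Prime) (d : ℕ) [NeZero d] (hd : d ∣ M * q) :
    (∃ f : FK K M, JK K (M * q) d hd = al K M q f) ∨
      ∃ f : FK K M, JK K (M * q) d hd = be K M q f := by
  by_cases hqd : q ∣ d
  · right
    obtain ⟨d', rfl⟩ := hqd
    have hd'0 : d' ≠ 0 := fun h => NeZero.ne (q * d') (by rw [h, mul_zero])
    have : NeZero d' := ⟨hd'0⟩
    have hd' : d' ∣ M := by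
      rw [mul_comm M q] at hd
      exact Nat.dvd_of_mul_dvd_mul_left hq.pos hd
    exact ⟨JK K M d' hd', (be_JK M q d' hd' hd).symm⟩
  · left
    have hd' : d ∣ M := (Nat.Coprime.symm ((Nat.Prime.coprime_iff_not_dvd hq).2 hqd)).dvd_of_dvd_mul_right hd
    exact ⟨JK K M d hd', (al_JK M q d hd').symm⟩

/-- The Atkin-Lehner involutions over `K` and over `ℚ̄` are compatible. -/
theorem bcX_ww (hq : q.Prime) (hc : M.Coprime q) (D : C1.ALData M q) (z : FK K (M * q)) :
    bcX K (M * q) (ww K hc z) = D.w (bcX K (M * q) z) := by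
  have key : (bcX K (M * q)).comp ((ww K hc : FK K (M * q) ≃ₐ[K] FK K (M * q)) :
      FK K (M * q) →+* FK K (M * q)) =
      (D.w : FN (M * q) →+* FN (M * q)).comp (bcX K (M * q)) := by
    apply ringHom_ext_JK
    · intro c
      show bcX K (M * q) (ww K hc (algebraMap K _ c)) = D.w (bcX K (M * q) (algebraMap K _ c))
      rw [AlgEquiv.commutes]
      have e : bcX K (M * q) (algebraMap K (FK K (M * q)) c) =
          algebraMap Kbar (FN (M * q)) (algebraMap K Kbar c) := baseChangeMap_algebraMap _ c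
      rw [e, AlgHom.commutes]
    · intro d _ hd
      show bcX K (M * q) (ww K hc (JK K (M * q) d hd)) = D.w (bcX K (M * q) (JK K (M * q) d hd))
      rcases JK_eq_al_or_be (K := K) hq d hd with ⟨f, hf⟩ | ⟨f, hf⟩
      · rw [hf, ww_al, bcX_be, bcX_al, D.w_al]
      · rw [hf, ww_be, bcX_be, bcX_al, D.w_be]
  exact RingHom.congr_fun key z

include hφ in
/-- `Vb = wG D G ∩ FK K (M q)`. -/
theorem mem_VV_one_iff_bcX_mem (hq : q.Prime) (hc : M.Coprime q) (D : C1.ALData M q)
    {G : ValuationSubring (FN (M * q))} (hG : IsGaussFN A (M * q) G) (z : FK K (M * q)) :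
    z ∈ VV A₀ hc 1 ↔ bcX K (M * q) z ∈ wG D G := by
  rw [mem_VV_one hc]
  show ww K hc z ∈ (stdEmb A₀ (M * q)).val ↔ D.w (bcX K (M * q) z) ∈ G
  rw [mem_val_iff_bcX_mem hφ hG, bcX_ww hq hc D]

include hφ in
theorem mem_VV_zero_iff_bcX_mem (hc : M.Coprime q)
    {G : ValuationSubring (FN (M * q))} (hG : IsGaussFN A (M * q) G) (z : FK K (M * q)) :
    z ∈ VV A₀ hc 0 ↔ bcX K (M * q) z ∈ G := mem_val_iff_bcX_mem hφ hG z

end Fermat.Agent.S44.X.Model

end
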