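/-
S44, block X, sub-block MODEL: THE INSTANCE OF `Eta` (helper225).

The two eta units of level `M q` over an abstract field `K ⊆ ℚ̄`:
`etaX = G(z) / G(q z)` (`Lib/EtaUnit/FK/Pack.lean`, helper213), `etaY = q / etaX = ± w (etaX)`.

* `eta_inst`     : `Eta (q : F) (VV A₀ hc) etaX etaY` (`BAD/LevelQ/Pt/B/Defs.lean`);
* `etaX_mem_ch₁`, `etaY_mem_ch₁` : they lie in the first chart of any hub with coordinate `j`.
-/
import Fermat.Agent.BAD.LevelQ.Pt.CuspInst
import Fermat.Agent.BAD.LevelQ.Mod.AL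
import Fermat.Agent.BAD.LevelQ.Mod.Gauss
import Fermat.Agent.Lib.EtaUnit.FK.Pack

set_option autoImplicit false
set_option linter.unusedSectionVars false

noncomputable section

namespace Fermat.Agent.S44.X.Model

open ModularCurve Fermat.Agent.S24 Fermat.Agent.S18 Fermat.Agent.S18.Vert
  Fermat.Agent.S36.Mod Fermat.Agent.S18.Descent Fermat.Agent.BAD.LevelQ
  Fermat.Agent.BAD.LevelQ.Mod Fermat.Agent.S36.BP Fermat.Agent.Lib.EtaUnit

variable (K : Type*) [Field K] [Algebra ℚ K] (M q : ℕ) [NeZero M] [NeZero q]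
  (hq : q.Prime) (haux : if q = 2 then 9 ∣ M else 4 ∣ M)

/-- `x = G(z) / G(q z)`. -/
def etaX : FK K (M * q) := etaK K q M hq haux

/-- `y = q / x`. -/
def etaY : FK K (M * q) := (q : FK K (M * q)) * (etaX K M q hq haux)⁻¹

theorem etaX_ne_zero : etaX K M q hq haux ≠ 0 := etaK_ne_zero K q M hq haux

theorem natCast_FK_ne_zero : (q : FK K (M * q)) ≠ 0 := by
  haveI : CharZero K := algebraRat.charZero K
  haveI : CharZero (FK K (M * q)) := charZero_of_injective_algebraMap
    (algebraMap K (FK K (M * q))).injective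
  exact_mod_cast NeZero.ne q

theorem etaY_ne_zero : etaY K M q hq haux ≠ 0 :=
  mul_ne_zero (natCast_FK_ne_zero K M q) (inv_ne_zero (etaX_ne_zero K M q hq haux))

theorem etaX_mul_etaY : etaX K M q hq haux * etaY K M q hq haux = (q : FK K (M * q)) := by
  rw [etaY, mul_left_comm, mul_inv_cancel₀ (etaX_ne_zero K M q hq haux), mul_one]

/-- `w y = ε x`, `ε = ± 1`. -/
theorem ww_etaY [Algebra K Kbar] (hc : M.Coprime q) :
    ww K hc (etaY K M q hq haux) = ((eps q : ℤ) : FK K (M * q)) * etaX K M q hq haux := by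
  have hx := etaX_ne_zero K M q hq haux
  have hq0 := natCast_FK_ne_zero K M q
  have h1 : ww K hc (etaX K M q hq haux) =
      (((eps q : ℤ) : FK K (M * q)) * (q : FK K (M * q))) * (etaX K M q hq haux)⁻¹ := by
    rw [ww_apply, etaX, wAL_etaK K q M hq haux hc]
    congr 1
    rw [Int.cast_mul, Int.cast_natCast, map_mul, map_intCast, map_natCast]
  have he : ((eps q : ℤ) : FK K (M * q)) * ((eps q : ℤ) : FK K (M * q)) = 1 := by
    rcases eps_eq hq with h | h <;> rw [h] <;> simp
  have he0 : ((eps q : ℤ) : FK K (M * q)) ≠ 0 := fun h => by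
    rw [h, zero_mul] at he; exact zero_ne_one he
  rw [etaY, map_mul, map_natCast, map_inv₀, h1]
  field_simp
  linear_combination (-(1 : FK K (M * q))) * he

variable {K M q}
variable [Algebra K Kbar] (A₀ : ValuationSubring K) [IsDiscreteValuationRing A₀]

theorem valuation_etaX_zero (hc : M.Coprime q) :
    (VV A₀ hc 0).valuation (etaX K M q hq haux) = 1 :=
  val_eq_one_iff.2 ⟨etaX_ne_zero K M q hq haux, etaK_mem_val K q M hq haux A₀,
    etaK_inv_mem_val K q M hq haux A₀⟩

theorem valuation_etaY_one (hc : M.Coprime q) :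
    (VV A₀ hc 1).valuation (etaY K M q hq haux) = 1 := by
  have hv : (VV A₀ hc 0).valuation (ww K hc (etaY K M q hq haux)) = 1 := by
    rw [ww_etaY, map_mul, valuation_etaX_zero, mul_one]
    rcases eps_eq hq with h | h <;> rw [h] <;> simp
  obtain ⟨-, h2, h3⟩ := val_eq_one_iff.1 hv
  refine val_eq_one_iff.2 ⟨etaY_ne_zero K M q hq haux, (mem_VV_one hc _).2 h2, ?_⟩
  rw [mem_VV_one, map_inv₀]
  exact h3

/-- **The instance of `Eta`.** -/
theorem eta_inst (hc : M.Coprime q) :
    Eta (q : FK K (M * q)) (VV A₀ hc) (etaX K M q hq haux) (etaY K M q hq haux) where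
  mul_eq := etaX_mul_etaY K M q hq haux
  x_unit := valuation_etaX_zero hq haux A₀ hc
  y_unit := valuation_etaY_one hq haux A₀ hc

theorem al_jK_eq : al K M q (jK K M) = jK K (M * q) := by
  rw [al_jK, Mod.jK_eq_JK]

theorem etaX_mem_chart_top :
    etaX K M q hq haux ∈ chart (⊤ : Subring K) (al K M q (jK K M)) := by
  rw [al_jK_eq]
  exact etaK_mem_chart_top K q M hq haux

theorem etaY_mem_chart_top :
    etaY K M q hq haux ∈ chart (⊤ : Subring K) (al K M q (jK K M)) := by
  rw [al_jK_eq]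
  exact Subring.mul_mem _ (natCast_mem _ q) (etaK_inv_mem_chart_top K q M hq haux)

variable {A₀}

/-- The eta units lie in the first chart. -/
theorem eta_mem_ch₁ (hc : M.Coprime q) {γ : FK K M →+* FK K M} {Ow' : ValuationSubring (FK K M)}
    {w : FK K (M * q) ≃ₐ[K] FK K (M * q)}
    (H : LQ A₀ (q : K) q (al K M q) (be K M q) w γ Ow' (VV A₀ hc) (jK K M)) :
    etaX K M q hq haux ∈ ch₁ A₀ (al K M q) (be K M q) (jK K M) ∧
      etaY K M q hq haux ∈ ch₁ A₀ (al K M q) (be K M q) (jK K M) :=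
  H.eta_mem_ch₁ (ε := 1) A₀.one_mem
    (by rw [one_mul, map_natCast]; exact etaX_mul_etaY K M q hq haux)
    (valuation_etaX_zero hq haux A₀ hc) (valuation_etaY_one hq haux A₀ hc)
    (etaX_mem_chart_top hq haux) (etaY_mem_chart_top hq haux)

end Fermat.Agent.S44.X.Model
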