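/-
S44, block X, sub-block MODEL: THE INSTANCE over the inertia field (helper225).

`LQ.exists_point` (`BAD/LevelQ/Pt/B/ExportPL.lean`, helper21) with all its inputs discharged:
`K₀ = K0 A`, `A₀ = A0 A`, `p ≥ 5`, `4 ∣ M`, `p ∤ M`, coordinate `j`, eta units `etaX`, `etaY`.
-/
import Fermat.Agent.S44.X.Model.Eta
import Fermat.Agent.BAD.LevelQ.Pt.B.ExportPL
import Fermat.Agent.BAD.LevelQ.Mod.MainSub

set_option autoImplicit false
set_option linter.unusedSectionVars false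

noncomputable section

namespace Fermat.Agent.S44.X.Model

open ModularCurve Fermat.Agent.S24 Fermat.Agent.S18 Fermat.Agent.S18.Vert
  Fermat.Agent.S36.Mod Fermat.Agent.S18.Descent Fermat.Agent.BAD.LevelQ
  Fermat.Agent.BAD.LevelQ.Mod Fermat.Agent.S36.BP Fermat.Agent.Lib.EtaUnit
  Fermat.Agent.Lib.InertiaField

variable {M p : ℕ} [NeZero M] [NeZero p]

theorem aux_of_four_dvd (h5 : 5 ≤ p) (h4 : 4 ∣ M) : if p = 2 then 9 ∣ M else 4 ∣ M := by
  rw [if_neg (by omega)]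
  exact h4

/-- **The hub over the inertia field with coordinate `j`** (`p ≥ 5`). -/
theorem exists_lq_jK (A : ValuationSubring Kbar) (hp : p.Prime) (h5 : 5 ≤ p)
    (hA : A.LiesOverPrime p) [IsDiscreteValuationRing (A0 A)] (hc : M.Coprime p) :
    ∃ γ₀ : K0 A →+* K0 A, IsFrobInv (A0 A) p γ₀ ∧
      LQ (A0 A) (p : K0 A) p (al (K0 A) M p) (be (K0 A) M p) (ww (K0 A) hc) (gam (K0 A) γ₀ M)
        (Og (A0 A) M) (VV (A0 A) hc) (jK (K0 A) M) := by
  obtain ⟨D, hD, -, hx⟩ := exists_baseData_jK.{0} (M := M) hp h5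
  obtain ⟨γ₀, h1, H⟩ := lq_inertia A hp hA hc D hD
  rw [hx] at H
  exact ⟨γ₀, h1, H⟩

/-- **Closed points of the regular model of `X₀(M p)` over the ring of integers of the inertia
field**: every valuation ring `VV' ⊊ V 0` containing `A0 A` dominates a closed point, which is a node
`etaX * etaY = p`, or a smooth point where `etaX` is a unit, if `j ∈ VV'`; a smooth point if not. -/
theorem exists_point_K0 (A : ValuationSubring Kbar) (hp : p.Prime) (h5 : 5 ≤ p)
    (hA : A.LiesOverPrime p) [IsDiscreteValuationRing (A0 A)] (hc : M.Coprime p) (h4 : 4 ∣ M)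
    (VV' : ValuationSubring (FK (K0 A) (M * p)))
    (hA' : ∀ a ∈ A0 A, algebraMap (K0 A) (FK (K0 A) (M * p)) a ∈ VV')
    (hle : VV' ≤ VV (A0 A) hc 0) (hne : VV' ≠ VV (A0 A) hc 0) :
    ∃ R : Subring (FK (K0 A) (M * p)),
      IsModelPt (A0 A) (p : K0 A) (xx (al (K0 A) M p) (be (K0 A) M p) (jK (K0 A) M)) R ∧
      Dominates VV' R ∧
      (jK (K0 A) (M * p) ∈ VV' →
        PL.IsNode (A0 A) p R (VV (A0 A) hc 0) (VV (A0 A) hc 1)
            (etaX (K0 A) M p hp (aux_of_four_dvd h5 h4))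
            (etaY (K0 A) M p hp (aux_of_four_dvd h5 h4)) ∨
          (PL.IsSmooth (A0 A) p R (VV (A0 A) hc 0) ∧
            RUnit R (etaX (K0 A) M p hp (aux_of_four_dvd h5 h4)))) ∧
      (jK (K0 A) (M * p) ∉ VV' → PL.IsSmooth (A0 A) p R (VV (A0 A) hc 0)) := by
  obtain ⟨γ₀, -, H⟩ := exists_lq_jK (M := M) A hp h5 hA hc
  have hb := Fermat.Agent.BAD.Bridge.baseHyp_A0 A p hp hA
  haveI := hb.charZero
  have haux := aux_of_four_dvd (M := M) h5 h4
  obtain ⟨hx, hy⟩ := eta_mem_ch₁ hp haux hc H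
  have h := H.exists_point hb.algClosed (eta_inst hp haux (A0 A) hc) hx hy (cuspQ_jK H) VV' hA'
    hle hne
  rwa [al_jK_eq] at h

end Fermat.Agent.S44.X.Model
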