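/-
S44, block X, sub-block MODEL (helper97): `NodeModel` together with the comparison with the Gauss
valuation ring `G` of `FN L` (request (8) of helper132's ruling of 09:48):
`Va = G ∩ E`, `Vb = wG D G ∩ E`.
-/
import Fermat.Agent.S44.X.Model.Top
import Fermat.Agent.S44.X.Model.GaussFN

set_option autoImplicit false
set_option linter.unusedSectionVars false

noncomputable section

namespace Fermat.Agent.S44.X.Model

open ModularCurve AlgebraicCurve Fermat.Agent.S24 Fermat.Agent.S18 Fermat.Agent.S36.Mod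
  Fermat.Agent.BAD.LevelQ Fermat.Agent.BAD.LevelQ.Mod Fermat.Agent.Lib.EtaUnit
  Fermat.Agent.Lib.InertiaField Fermat.Agent.S36.BP Fermat.Agent.S44.PL Fermat.Agent.S44.X.Cover

/-- `Va = G ∩ E`, `Vb = wG D G ∩ E`. -/
def GaussCompat (A : ValuationSubring S44.Qb) (p M : ℕ) [NeZero p] [NeZero M]
    (Va Vb : ValuationSubring (FK (K0 A) (M * p))) : Prop :=
  ∀ G : ValuationSubring (FN (M * p)), IsGaussFN A (M * p) G →
    (∀ z, z ∈ Va ↔ bcX (K0 A) (M * p) z ∈ G) ∧
      ∀ (D : C1.ALData M p) (z), z ∈ Vb ↔ bcX (K0 A) (M * p) z ∈ wG D G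

/-- **Node Model**, with the comparison with `G`. -/
def NodeModelG : Prop :=
  ∀ (p : ℕ) [NeZero p] (M' : ℕ) [NeZero M'], p.Prime → 5 ≤ p → ¬ p ∣ M' →
    ∀ (hp4 : Nat.Coprime p 4) (A : ValuationSubring S44.Qb), A.LiesOverPrime p →
      ∃ (Va Vb : ValuationSubring (FK (K0 A) (M' * 4 * p))) (x y : FK (K0 A) (M' * 4 * p)),
        IsNodeModel A p (M' * 4) Va Vb x y ∧ bcX (K0 A) (M' * 4 * p) x = xU p M' hp4 ∧
          GaussCompat A p (M' * 4) Va Vb

theorem nodeModelG : NodeModelG := by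
  intro p _ M' _ hp h5 hpM hp4 A hA
  have := isDiscreteValuationRing_A0 A p hp hA
  have hpM4 : ¬ p ∣ M' * 4 := fun h => hpM (hp4.dvd_of_dvd_mul_right h)
  have hc : (M' * 4).Coprime p := ((Nat.Prime.coprime_iff_not_dvd hp).2 hpM4).symm
  have hN : 4 * p ∣ M' * 4 * p := ⟨M', by ring⟩
  exact ⟨_, _, _, _, isNodeModel hp h5 hpM4 (Dvd.intro_left M' rfl) hA hc hp4 hN,
    baseChangeMap_unitK isW1_G4 p (M' * 4 * p) hp4 hN _,
    fun G hG => ⟨mem_VV_zero_iff_bcX_mem (comap_A0 A) hc hG,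
      fun D => mem_VV_one_iff_bcX_mem (comap_A0 A) hp hc D hG⟩⟩

end Fermat.Agent.S44.X.Model

end
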